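import Fermat.Agent.CFT.Coh.Sub

/-!
# CFT / Coh : inflation-restriction in degree 2 (explicit cocycles)

`G` a level group, `S` an open normal subgroup, `V` a `G`-module with `H¹(S,V) = 0`.  Then
`0 → H²(G/S, V^S) → H²(G,V) → H²(S,V)` is exact.  "Inflated from `G/S`" is the predicate
`IsInfl S ρ y` on cochains `y : G × G → V`.
-/

set_option autoImplicit false

namespace Fermat.Agent.CFT

variable {k : Type} [CommRing k] {G : Type} [Group G] {V : Type} [AddCommGroup V] [Module k V]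
  {𝒰 : Levels G} {ρ : Representation k G V}

/-- the 2-cocycle identity, pointwise -/
theorem coc2 {f : G × G → V} (hf : d23 ρ f = 0) (a b c : G) :
    ρ a (f (b, c)) - f (a * b, c) + f (a, b * c) - f (a, b) = 0 := congrFun hf (a, b, c)

/-- `y` is inflated from a cochain of `G/S` with values in `V^S`. -/
def IsInfl (S : Subgroup G) (ρ : Representation k G V) (y : G × G → V) : Prop :=
  (∀ g h s s', s ∈ S → s' ∈ S → y (g * s, h * s') = y (g, h)) ∧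
    ∀ g h, ∀ s ∈ S, ρ s (y (g, h)) = y (g, h)

/-- `H¹(S,V) = 0` for level-constant cocycles, phrased with functions on `G` (the values outside
`S` are irrelevant). -/
def H1Vanish (𝒰 : Levels G) (S : Subgroup G) (ρ : Representation k G V) : Prop :=
  ∀ c : G → V, (∃ U ∈ 𝒰.carrier, ∀ t ∈ S, ∀ u ∈ U, u ∈ S → c (t * u) = c t) →
    (∀ t ∈ S, ∀ t' ∈ S, c (t * t') = c t + ρ t (c t')) → ∃ a : V, ∀ t ∈ S, c t = ρ t a - a

theorem coc2_one_left {f : G × G → V} (hf : d23 ρ f = 0) (g : G) : f (1, g) = f (1, 1) := by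
  have := coc2 hf 1 1 g
  simp only [map_one, Module.End.one_apply, one_mul] at this
  linear_combination (norm := abel) this

theorem coc2_one_right {f : G × G → V} (hf : d23 ρ f = 0) (g : G) :
    f (g, 1) = ρ g (f (1, 1)) := by
  have := coc2 hf g 1 1
  simp only [mul_one] at this
  linear_combination (norm := abel) -this

section core

variable {S : Subgroup G} {f : G × G → V}

theorem coc2_mul_of_vanish (hf : d23 ρ f = 0) (h0 : ∀ t ∈ S, ∀ t' ∈ S, f (t, t') = 0) (g : G)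
    {t t' : G} (ht : t ∈ S) (ht' : t' ∈ S) : f (g, t * t') = f (g * t, t') + f (g, t) := by
  have := coc2 hf g t t'
  rw [h0 t ht t' ht', map_zero] at this
  linear_combination (norm := abel) this

/-- the obstruction for `(0,g)` to normalise the splitting of `S` -/
def conjCoc (f : G × G → V) (g t : G) : V := f (g, g⁻¹ * t * g) - f (t, g)

theorem conj_mem' [hn : S.Normal] (g : G) {t : G} (ht : t ∈ S) : g⁻¹ * t * g ∈ S := by
  have := hn.conj_mem t ht g⁻¹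
  rwa [inv_inv] at this

theorem conjCoc_mul [S.Normal] (hf : d23 ρ f = 0) (h0 : ∀ t ∈ S, ∀ t' ∈ S, f (t, t') = 0)
    (g : G) {t₁ t₂ : G} (h₁ : t₁ ∈ S) (h₂ : t₂ ∈ S) :
    conjCoc f g (t₁ * t₂) = conjCoc f g t₁ + ρ t₁ (conjCoc f g t₂) := by
  have I1 := coc2_mul_of_vanish hf h0 g (conj_mem' g h₁) (conj_mem' g h₂)
  have I2 := coc2 hf t₁ g (g⁻¹ * t₂ * g)
  have I3 := coc2 hf t₁ t₂ g
  rw [h0 t₁ h₁ t₂ h₂] at I3
  have e1 : g⁻¹ * t₁ * g * (g⁻¹ * t₂ * g) = g⁻¹ * (t₁ * t₂) * g := by group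
  have e2 : g * (g⁻¹ * t₁ * g) = t₁ * g := by group
  have e3 : g * (g⁻¹ * t₂ * g) = t₂ * g := by group
  rw [e1, e2] at I1
  rw [e3] at I2
  simp only [conjCoc, map_sub]
  linear_combination (norm := abel) I1 - I2 + I3

theorem conjCoc_transfer [S.Normal] (hf : d23 ρ f = 0) (h0 : ∀ t ∈ S, ∀ t' ∈ S, f (t, t') = 0)
    (g : G) {t₀ : G} (h₀ : t₀ ∈ S) {a : V} (ha : ∀ t ∈ S, conjCoc f g t = ρ t a - a) :
    ∀ t ∈ S, conjCoc f (g * t₀) t = ρ t (a + f (g, t₀)) - (a + f (g, t₀)) := by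
  intro t ht
  have hτ : g⁻¹ * t * g ∈ S := conj_mem' g ht
  have J1 := coc2 hf t g t₀
  have J2 := coc2_mul_of_vanish hf h0 g hτ h₀
  have J3 := coc2_mul_of_vanish hf h0 g h₀ (conj_mem' t₀ hτ)
  have e1 : g * (g⁻¹ * t * g) = t * g := by group
  have e2 : t₀ * (t₀⁻¹ * (g⁻¹ * t * g) * t₀) = g⁻¹ * t * g * t₀ := by group
  have e3 : (g * t₀)⁻¹ * t * (g * t₀) = t₀⁻¹ * (g⁻¹ * t * g) * t₀ := by group
  rw [e1] at J2
  rw [e2] at J3
  have J4 := ha t ht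
  simp only [conjCoc] at J4 ⊢
  rw [e3, map_add]
  linear_combination (norm := abel) J4 - J1 + J2 - J3

/-- the core construction -/
theorem exists_isInfl_of_vanish [S.Normal] (hS : ∃ U ∈ 𝒰.carrier, U ≤ S)
    (h1 : H1Vanish 𝒰 S ρ) (hf : f ∈ Z2 𝒰 ρ) (h0 : ∀ t ∈ S, ∀ t' ∈ S, f (t, t') = 0) :
    ∃ h ∈ C1 k V 𝒰, IsInfl S ρ (f + d12 ρ h) := by
  obtain ⟨hfc, Uf, hUf, hfU⟩ := hf
  have hfc : d23 ρ f = 0 := hfc
  obtain ⟨U₀, hU₀, hU₀S⟩ := hS
  have hUfn : Uf.Normal := 𝒰.normal Uf hUf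
  have f11 : f (1, 1) = 0 := h0 1 S.one_mem 1 S.one_mem
  have fg1 : ∀ g, f (g, 1) = 0 := fun g => by rw [coc2_one_right hfc, f11, map_zero]
  -- the choice of `a g`
  have hex : ∀ g : G, ∃ a : V, ∀ t ∈ S, conjCoc f g t = ρ t a - a := by
    intro g
    refine h1 (conjCoc f g) ⟨Uf, hUf, fun t _ u hu _ => ?_⟩
      (fun t ht t' ht' => conjCoc_mul hfc h0 g ht ht')
    have e : g⁻¹ * (t * u) * g = g⁻¹ * t * g * (g⁻¹ * u * g) := by group
    have h2 := hfU g (g⁻¹ * t * g) 1 (g⁻¹ * u * g) Uf.one_mem (conj_mem' g hu)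
    have h3 := hfU t g u 1 hu Uf.one_mem
    rw [mul_one] at h2 h3
    simp only [conjCoc]
    rw [e, h2, h3]
  choose a ha using hex
  -- the cochain `h`
  let r : G → G := fun g => ((g : G ⧸ S)).out
  have hr : ∀ g, (r g)⁻¹ * g ∈ S := fun g => by
    have : ((r g : G) : G ⧸ S) = (g : G ⧸ S) := QuotientGroup.out_eq' _
    exact QuotientGroup.eq.1 this
  have hrS : ∀ g, ∀ t ∈ S, r (g * t) = r g := fun g t ht => by
    have : ((g * t : G) : G ⧸ S) = (g : G ⧸ S) := by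
      rw [eq_comm, QuotientGroup.eq]
      simpa using ht
    simp only [r, this]
  let h : G → V := fun g => a (r g) + f (r g, (r g)⁻¹ * g)
  have P2 : ∀ g, ∀ t ∈ S, h (g * t) = h g + f (g, t) := by
    intro g t ht
    have := coc2_mul_of_vanish hfc h0 (r g) (hr g) ht
    rw [mul_inv_cancel_left] at this
    simp only [h]
    rw [hrS g t ht, ← mul_assoc, this]
    abel
  have P3 : ∀ g, ∀ t ∈ S, conjCoc f g t = ρ t (h g) - h g := by
    intro g t ht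
    have := conjCoc_transfer hfc h0 (r g) (hr g) (ha (r g)) t ht
    rwa [mul_inv_cancel_left] at this
  have hy : d23 ρ (f + d12 ρ h) = 0 := by rw [map_add, hfc, d23_d12, add_zero]
  have Hi : ∀ g g' t, t ∈ S → (f + d12 ρ h) (g, g' * t) = (f + d12 ρ h) (g, g') := by
    intro g g' t ht
    have K := coc2 hfc g g' t
    simp only [Pi.add_apply, d12_apply]
    rw [← mul_assoc, P2 g' t ht, P2 (g * g') t ht, map_add]
    linear_combination (norm := abel) K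
  have Hii : ∀ g g' t, t ∈ S → (f + d12 ρ h) (g * t, g') = (f + d12 ρ h) (g, g') := by
    intro g g' t ht
    have K1 := coc2 hfc g t g'
    have K2 := coc2 hfc g g' (g'⁻¹ * t * g')
    have e1 : g' * (g'⁻¹ * t * g') = t * g' := by group
    have e2 : g * t * g' = g * g' * (g'⁻¹ * t * g') := by group
    rw [e1] at K2
    have K3 := P3 g' t ht
    simp only [conjCoc] at K3
    have K4 : ρ g (ρ t (h g')) = ρ g (h g') + ρ g (f (g', g'⁻¹ * t * g')) - ρ g (f (t, g')) := by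
      rw [← map_add, ← map_sub]
      congr 1
      linear_combination (norm := abel) -K3
    simp only [Pi.add_apply, d12_apply]
    rw [e2, P2 (g * g') _ (conj_mem' g' ht), P2 g t ht, map_mul, Module.End.mul_apply, K4]
    linear_combination (norm := abel) K2 - K1
  refine ⟨h, ?_, ⟨fun g g' s s' hs hs' => by rw [Hii _ _ _ hs, Hi _ _ _ hs'], ?_⟩⟩
  · obtain ⟨W, hW, hW1, hW2⟩ := 𝒰.directed U₀ hU₀ Uf hUf
    refine ⟨W, hW, fun g s hs => ?_⟩
    have := hfU g 1 1 s Uf.one_mem (hW2 hs)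
    rw [mul_one, one_mul, fg1] at this
    rw [P2 g s (hU₀S (hW1 hs)), this, add_zero]
  · intro g g' s hs
    have K := coc2 hy s g g'
    have e1 : s * g = g * (g⁻¹ * s * g) := by group
    have e2 := Hii 1 (g * g') s hs
    have e3 := Hii 1 g s hs
    rw [one_mul] at e2 e3
    rw [e1, Hii _ _ _ (conj_mem' g hs), e2, e3, coc2_one_left hy, coc2_one_left hy g] at K
    linear_combination (norm := abel) K

end core

variable {S : Subgroup G}

/-- **Exactness at `H²(G,V)`**: a class whose restriction to `S` is trivial is inflated. -/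
theorem infres2_exact [S.Normal] (hS : ∃ U ∈ 𝒰.carrier, U ≤ S) (hρ : IsSmooth 𝒰 ρ)
    (h1 : H1Vanish 𝒰 S ρ) {x : G × G → V} (hx : x ∈ Z2 𝒰 ρ)
    (hres : ∃ u ∈ C1 k V 𝒰, ∀ t ∈ S, ∀ t' ∈ S, x (t, t') = d12 ρ u (t, t')) :
    ∃ y ∈ Z2 𝒰 ρ, IsInfl S ρ y ∧ x - y ∈ B2 𝒰 ρ := by
  obtain ⟨u, hu, hxu⟩ := hres
  have hdu : d12 ρ u ∈ B2 𝒰 ρ := ⟨u, hu, rfl⟩
  have hf : x - d12 ρ u ∈ Z2 𝒰 ρ := (Z2 𝒰 ρ).sub_mem hx (B2_le_Z2 hρ hdu)
  obtain ⟨h, hh, hinf⟩ := exists_isInfl_of_vanish hS h1 hf (fun t ht t' ht' => by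
    rw [Pi.sub_apply, hxu t ht t' ht', sub_self])
  have hdh : d12 ρ h ∈ B2 𝒰 ρ := ⟨h, hh, rfl⟩
  refine ⟨_, (Z2 𝒰 ρ).add_mem hf (B2_le_Z2 hρ hdh), hinf, ?_⟩
  have : x - (x - d12 ρ u + d12 ρ h) = d12 ρ u - d12 ρ h := by abel
  rw [this]
  exact (B2 𝒰 ρ).sub_mem hdu hdh

/-- **Injectivity of inflation**: an inflated cochain which is a coboundary on `G` is the
coboundary of an inflated cochain. -/
theorem infres2_inj [S.Normal] (hS : ∃ U ∈ 𝒰.carrier, U ≤ S) (h1 : H1Vanish 𝒰 S ρ)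
    {y : G × G → V} (hy : IsInfl S ρ y) (hB : y ∈ B2 𝒰 ρ) :
    ∃ w ∈ C1 k V 𝒰, (∀ g, ∀ s ∈ S, w (g * s) = w g) ∧ (∀ g, ∀ s ∈ S, ρ s (w g) = w g) ∧
      y = d12 ρ w := by
  obtain ⟨w₀, ⟨U, hU, hw₀U⟩, rfl⟩ := hB
  obtain ⟨hy1, hy2⟩ := hy
  have y11 : d12 ρ w₀ (1, 1) = w₀ 1 := by simp
  have hw1 : ∀ s ∈ S, ρ s (w₀ 1) = w₀ 1 := fun s hs => by
    have := hy2 1 1 s hs
    rwa [y11] at this
  have hyS : ∀ g g' t t', t ∈ S → t' ∈ S → d12 ρ w₀ (g * t, g' * t') = d12 ρ w₀ (g, g') :=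
    fun g g' t t' ht ht' => hy1 g g' t t' ht ht'
  obtain ⟨a, ha⟩ := h1 (fun t => w₀ t - w₀ 1) ⟨U, hU, fun t _ u hu _ => by
      simp only [hw₀U t u hu]⟩ (fun t ht t' ht' => by
    have := hyS 1 1 t t' ht ht'
    rw [y11] at this
    simp only [one_mul, d12_apply] at this
    rw [map_sub, hw1 t ht]
    linear_combination (norm := abel) -this)
  have hd : d12 ρ (w₀ - d01 ρ a) = d12 ρ w₀ := by rw [map_sub, d12_d01, sub_zero]
  have hwS : ∀ t ∈ S, (w₀ - d01 ρ a) t = w₀ 1 := fun t ht => by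
    have := ha t ht
    simp only [Pi.sub_apply, d01_apply]
    linear_combination (norm := abel) this
  have hR : ∀ g, ∀ s ∈ S, (w₀ - d01 ρ a) (g * s) = (w₀ - d01 ρ a) g := by
    intro g s hs
    have h2 := hyS g 1 1 s S.one_mem hs
    rw [← hd] at h2
    simp only [d12_apply, mul_one, one_mul] at h2
    rw [hwS s hs, hwS 1 S.one_mem] at h2
    linear_combination (norm := abel) -h2
  refine ⟨w₀ - d01 ρ a, ?_, hR, ?_, hd.symm⟩
  · obtain ⟨U₀, hU₀, hU₀S⟩ := hS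
    exact ⟨U₀, hU₀, fun g s hs => hR g s (hU₀S hs)⟩
  · intro g s hs
    have h2 := hyS 1 g s 1 hs S.one_mem
    rw [← hd] at h2
    simp only [d12_apply, mul_one, one_mul, map_one, Module.End.one_apply] at h2
    have e1 : s * g = g * (g⁻¹ * s * g) := by group
    rw [e1, hR g _ (conj_mem' g hs), hwS s hs, hwS 1 S.one_mem] at h2
    linear_combination (norm := abel) h2

/-! ### adapters to `Levels.sub` -/

/-- a level-constant cochain on an open subgroup extends by zero -/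
theorem exists_extend_C1 (hS : ∃ U ∈ 𝒰.carrier, U ≤ S) {u : S → V}
    (hu : u ∈ C1 k V (𝒰.sub S)) : ∃ u' ∈ C1 k V 𝒰, u' ∘ S.subtype = u := by
  classical
  obtain ⟨_, ⟨U, hU, rfl⟩, huU⟩ := hu
  obtain ⟨U₀, hU₀, hU₀S⟩ := hS
  obtain ⟨W, hW, hW1, hW2⟩ := 𝒰.directed U₀ hU₀ U hU
  refine ⟨fun g => if hg : g ∈ S then u ⟨g, hg⟩ else 0, ⟨W, hW, fun g s hs => ?_⟩, ?_⟩
  · have hsS : s ∈ S := hU₀S (hW1 hs)
    by_cases hg : g ∈ S
    · simp only [dif_pos hg, dif_pos (S.mul_mem hg hsS)]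
      exact huU ⟨g, hg⟩ ⟨s, hsS⟩ (Subgroup.mem_subgroupOf.2 (hW2 hs))
    · simp only [dif_neg hg, dif_neg (fun h => hg ((Subgroup.mul_mem_cancel_right S hsS).1 h))]
  · funext t
    simp

theorem h1Vanish_of_le (h : Z1 (𝒰.sub S) (resRep ρ S) ≤ B1 (resRep ρ S)) : H1Vanish 𝒰 S ρ := by
  intro c ⟨U, hU, hcU⟩ hc
  have hz : c ∘ S.subtype ∈ Z1 (𝒰.sub S) (resRep ρ S) := by
    refine ⟨?_, U.subgroupOf S, ⟨U, hU, rfl⟩, fun g s hs => ?_⟩
    · refine LinearMap.mem_ker.2 ?_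
      funext g
      have := hc g.1 g.1.2 g.2 g.2.2
      simp only [d12_apply, Function.comp_apply, Subgroup.subtype_apply, Subgroup.coe_mul,
        Pi.zero_apply, this]
      simp
    · exact hcU g g.2 s (Subgroup.mem_subgroupOf.1 hs) s.2
  obtain ⟨a, ha⟩ := h hz
  exact ⟨a, fun t ht => (congrFun ha ⟨t, ht⟩).symm⟩

/-- `infres2_exact` in the language of `Levels.sub`. -/
theorem infres2_exact' [S.Normal] (hS : ∃ U ∈ 𝒰.carrier, U ≤ S) (hρ : IsSmooth 𝒰 ρ)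
    (h1 : Z1 (𝒰.sub S) (resRep ρ S) ≤ B1 (resRep ρ S)) {x : G × G → V} (hx : x ∈ Z2 𝒰 ρ)
    (hres : x ∘ Prod.map S.subtype S.subtype ∈ B2 (𝒰.sub S) (resRep ρ S)) :
    ∃ y ∈ Z2 𝒰 ρ, IsInfl S ρ y ∧ x - y ∈ B2 𝒰 ρ := by
  obtain ⟨u, hu, hxu⟩ := hres
  obtain ⟨u', hu', rfl⟩ := exists_extend_C1 hS hu
  refine infres2_exact hS hρ (h1Vanish_of_le h1) hx ⟨u', hu', fun t ht t' ht' => ?_⟩
  exact (congrFun hxu (⟨t, ht⟩, ⟨t', ht'⟩)).symm

end Fermat.Agent.CFT
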