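import Fermat.Agent.CFT.Coh.CyclicInfl
import Fermat.Agent.CFT.Coh.InfRes2

/-! # CFT / Coh: (C) the kernel of `res : H^2(G,V) → H^2(S,V)`, `S = ker χ`, `H^1(S,V) = 0`,
consists of the cyclic classes `(a, χ)`, `a ∈ V^G`; and `(a,χ) = 0` iff `a` is a norm. -/

set_option autoImplicit false
set_option linter.unusedSectionVars false

namespace Fermat.Agent.CFT

variable {k : Type} [CommRing k] {G : Type} [Group G] {V : Type} [AddCommGroup V] [Module k V]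
  {𝒰 : Levels G} {ρ : Representation k G V} {n : ℕ} [NeZero n]
  {χ : G →* Multiplicative (ZMod n)} {σ : G}

/-- (C): classes split by `S = ker χ` are cyclic -/
theorem exists_cyc_of_res_mem_B2 (hσ : χ σ = Multiplicative.ofAdd 1)
    (hχ : ∃ U ∈ 𝒰.carrier, U ≤ χ.ker) (hρ : IsSmooth 𝒰 ρ)
    (h1 : Z1 (𝒰.sub χ.ker) (resRep ρ χ.ker) ≤ B1 (resRep ρ χ.ker)) {x : G × G → V}
    (hx : x ∈ Z2 𝒰 ρ)
    (hres : x ∘ Prod.map χ.ker.subtype χ.ker.subtype ∈ B2 (𝒰.sub χ.ker) (resRep ρ χ.ker)) :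
    ∃ a : V, (∀ g, ρ g a = a) ∧ x - cyc χ a ∈ B2 𝒰 ρ := by
  obtain ⟨y, hy, hyI, hxy⟩ := infres2_exact' hχ hρ h1 hx hres
  obtain ⟨a, ha, hya⟩ := exists_cyc_of_infl (𝒰 := 𝒰) hσ hχ (LinearMap.mem_ker.1 hy.1) hyI.1
  refine ⟨a, ha, ?_⟩
  have : x - cyc χ a = (x - y) + (y - cyc χ a) := by abel
  rw [this]
  exact (B2 𝒰 ρ).add_mem hxy hya

/-- the restriction of a cyclic class to `S = ker χ` vanishes identically -/
theorem cyc_res_ker (a : V) : cyc χ a ∘ Prod.map χ.ker.subtype χ.ker.subtype = 0 := by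
  funext ⟨s, t⟩
  change cyc χ a ((s : G), (t : G)) = 0
  rw [cyc_apply, carry_ker_right χ _ t.2, zero_smul]

/-- (A)+(B): `(a, χ) = 0` iff `a` is a norm from `V^S` -/
theorem cyc_mem_B2_iff (hσ : χ σ = Multiplicative.ofAdd 1)
    (hχ : ∃ U ∈ 𝒰.carrier, U ≤ χ.ker)
    (h1 : Z1 (𝒰.sub χ.ker) (resRep ρ χ.ker) ≤ B1 (resRep ρ χ.ker)) {a : V}
    (ha : ∀ g, ρ g a = a) :
    cyc χ a ∈ B2 𝒰 ρ ↔ ∃ b : V, (∀ s ∈ χ.ker, ρ s b = b) ∧ a = pnorm ρ σ n b := by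
  constructor
  · exact exists_norm_of_cyc_mem_B2 hσ h1 ha
  · rintro ⟨b, hb, rfl⟩
    exact cyc_mem_B2_of_norm hσ hχ hb

/-- additivity of the cyclic class in `a` -/
theorem cyc_add (a b : V) : cyc χ (a + b) = cyc χ a + cyc χ b := by
  funext ⟨g, h⟩
  simp [cyc_apply, smul_add]

theorem cyc_sub (a b : V) : cyc χ (a - b) = cyc χ a - cyc χ b := by
  funext ⟨g, h⟩
  simp [cyc_apply, smul_sub]

theorem cyc_zero : cyc χ (0 : V) = 0 := by
  funext ⟨g, h⟩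
  simp [cyc_apply]

theorem cyc_smul (c : k) (a : V) : cyc χ (c • a) = c • cyc χ a := by
  funext ⟨g, h⟩
  rw [Pi.smul_apply, cyc_apply, cyc_apply, smul_comm]

/-- functoriality in the module -/
theorem cyc_comp {W : Type} [AddCommGroup W] [Module k W] (f : V →ₗ[k] W) (a : V) :
    f ∘ cyc χ a = cyc χ (f a) := by
  funext ⟨g, h⟩
  simp [cyc_apply]

end Fermat.Agent.CFT
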