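import Fermat.Agent.CFT.Coh.H90

/-! # CFT / Coh: Hilbert 90 for open subgroups.

Galois closedness of the levels passes to every subgroup containing a level (Artin's lemma, proved
with Dedekind independence), hence Hilbert 90 holds for `(↥H, 𝒰.sub H)`, `H` open. -/

set_option autoImplicit false

namespace Fermat.Agent.CFT

open Finset

section

variable {G : Type} [Group G] {Ω : Type} [Field Ω] [MulSemiringAction G Ω]

theorem smul_cosetHom (U : Subgroup G) (g : G) (q : G ⧸ U) (θ : fixedSubmonoid Ω U) :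
    g • cosetHom U q θ = cosetHom U (g • q) θ := by
  induction q using QuotientGroup.induction_on with
  | H h =>
  have : g • (h : G ⧸ U) = ((g * h : G) : G ⧸ U) := rfl
  rw [this, cosetHom_mk, cosetHom_mk, mul_smul]

/-- **Artin**: a subgroup `K` containing a Galois closed subgroup `U` of finite index is Galois
closed. -/
theorem mem_of_fixes {U K : Subgroup G} [U.FiniteIndex]
    (hGal : ∀ g : G, (∀ x : Ω, (∀ s ∈ U, s • x = x) → g • x = x) → g ∈ U) (hle : U ≤ K)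
    (g : G) (hg : ∀ x : Ω, (∀ s ∈ K, s • x = x) → g • x = x) : g ∈ K := by
  classical
  have : Finite (G ⧸ U) := Subgroup.finite_quotient_of_finiteIndex
  have : Fintype (G ⧸ U) := Fintype.ofFinite _
  have hli : LinearIndependent Ω
      (fun q : G ⧸ U => (cosetHom (Ω := Ω) U q : fixedSubmonoid Ω U → Ω)) :=
    (linearIndependent_monoidHom (fixedSubmonoid Ω U) Ω).comp _ (cosetHom_injective hGal)
  -- the indicator of `K/U`
  let ind : G ⧸ U → Ω := fun q => if q.out ∈ K then 1 else 0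
  have hind : ∀ h : G, ind (h : G ⧸ U) = if h ∈ K then 1 else 0 := by
    intro h
    obtain ⟨s, hs⟩ := QuotientGroup.mk_out_eq_mul U h
    have : (Quotient.out (h : G ⧸ U)) ∈ K ↔ h ∈ K := by
      rw [hs]
      exact K.mul_mem_cancel_right (hle s.2)
    simp only [ind, this]
  have hindK : ∀ κ ∈ K, ∀ q : G ⧸ U, ind (κ • q) = ind q := by
    intro κ hκ q
    induction q using QuotientGroup.induction_on with
    | H h =>
    have : κ • (h : G ⧸ U) = ((κ * h : G) : G ⧸ U) := rfl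
    rw [this, hind, hind, K.mul_mem_cancel_left hκ]
  let T : fixedSubmonoid Ω U → Ω := fun θ => ∑ q : G ⧸ U, ind q * cosetHom U q θ
  have hsmul : ∀ (γ : G) (θ : fixedSubmonoid Ω U),
      γ • T θ = ∑ q : G ⧸ U, ind (γ⁻¹ • q) * cosetHom U q θ := by
    intro γ θ
    simp only [T]
    rw [Finset.smul_sum, ← Equiv.sum_comp (MulAction.toPerm γ)
      (fun q => ind (γ⁻¹ • q) * cosetHom U q θ)]
    refine Finset.sum_congr rfl fun q _ => ?_
    have hi : γ • ind q = ind q := by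
      simp only [ind]
      split_ifs <;> simp
    rw [smul_mul', hi, smul_cosetHom, MulAction.toPerm_apply, inv_smul_smul]
  have hTK : ∀ θ, ∀ κ ∈ K, κ • T θ = T θ := by
    intro θ κ hκ
    rw [hsmul]
    exact Finset.sum_congr rfl fun q _ => by rw [hindK κ⁻¹ (K.inv_mem hκ)]
  have h0 : ∑ q : G ⧸ U, (ind (g⁻¹ • q) - ind q) •
      (cosetHom (Ω := Ω) U q : fixedSubmonoid Ω U → Ω) = 0 := by
    funext θ
    have := hg (T θ) (hTK θ)
    rw [hsmul] at this
    simp only [Finset.sum_apply, Pi.smul_apply, smul_eq_mul, sub_mul, Finset.sum_sub_distrib,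
      Pi.zero_apply]
    rw [this, sub_self]
  have h1 := Fintype.linearIndependent_iff.1 hli _ h0 ((1 : G) : G ⧸ U)
  have e : g⁻¹ • ((1 : G) : G ⧸ U) = ((g⁻¹ : G) : G ⧸ U) := by
    change (((g⁻¹ * 1 : G)) : G ⧸ U) = _
    rw [mul_one]
  rw [e, hind, hind, if_pos K.one_mem] at h1
  by_contra hgK
  rw [if_neg (fun h => hgK (K.inv_mem_iff.1 h))] at h1
  simp at h1

end

section Rep

variable {k : Type} [CommRing k] {G : Type} [Group G] {V : Type} [AddCommGroup V] [Module k V]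
  {Ω : Type} [Field Ω] [MulSemiringAction G Ω] {𝒰 : Levels G}

/-- Galois closedness passes to open subgroups -/
theorem Levels.IsGaloisClosed.sub (h : 𝒰.IsGaloisClosed Ω) {H : Subgroup G}
    (hH : ∃ U ∈ 𝒰.carrier, U ≤ H) : (𝒰.sub H).IsGaloisClosed Ω := by
  rintro _ ⟨U, hU, rfl⟩ g hg
  obtain ⟨U₀, hU₀, hU₀H⟩ := hH
  obtain ⟨W, hW, hWU₀, hWU⟩ := 𝒰.directed U₀ hU₀ U hU
  have := 𝒰.finiteIndex W hW
  have hmem : (g : G) ∈ U ⊓ H := by
    refine mem_of_fixes (Ω := Ω) (h W hW) (le_inf hWU (hWU₀.trans hU₀H)) (g : G) fun x hx => ?_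
    exact hg x fun s hs => hx (s : G) ⟨hs, s.2⟩
  exact hmem.1

/-- **Hilbert 90** for open subgroups, exponential form -/
theorem hilbert90_of_exp_sub (hGal : 𝒰.IsGaloisClosed Ω) (ρ : Representation k G V) (E : V → Ω)
    (hEadd : ∀ x y, E (x + y) = E x * E y) (hE0 : ∀ x, E x ≠ 0)
    (hEρ : ∀ g x, E (ρ g x) = g • E x) (hEinj : Function.Injective E)
    (hEsurj : ∀ U ∈ 𝒰.carrier, ∀ b : Ω, b ≠ 0 → (∀ s ∈ U, s • b = b) → ∃ x, E x = b)
    {H : Subgroup G} (hH : ∃ U ∈ 𝒰.carrier, U ≤ H) :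
    Z1 (𝒰.sub H) (resRep ρ H) ≤ B1 (resRep ρ H) := by
  refine hilbert90_of_exp (hGal.sub hH) (resRep ρ H) E hEadd hE0 (fun g x => hEρ (g : G) x) hEinj ?_
  rintro _ ⟨U, hU, rfl⟩ b hb0 hb
  obtain ⟨U₀, hU₀, hU₀H⟩ := hH
  obtain ⟨W, hW, hWU₀, hWU⟩ := 𝒰.directed U₀ hU₀ U hU
  exact hEsurj W hW b hb0 fun s hs => hb ⟨s, hU₀H (hWU₀ hs)⟩ (hWU hs)

/-- **Hilbert 90** for open subgroups: `H^1(H, Ωˣ) = 0` -/
theorem hilbert90_sub (hGal : 𝒰.IsGaloisClosed Ω) {H : Subgroup G}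
    (hH : ∃ U ∈ 𝒰.carrier, U ≤ H) :
    Z1 (𝒰.sub H) (resRep (unitsRep G Ω) H) ≤ B1 (resRep (unitsRep G Ω) H) :=
  hilbert90_of_exp_sub hGal (unitsRep G Ω) (fun u => (u.toMul : Ω)) (fun _ _ => rfl)
    (fun u => u.toMul.ne_zero) (fun _ _ => rfl)
    (fun _ _ h => Additive.toMul.injective (Units.ext h))
    (fun _ _ b hb _ => ⟨Additive.ofMul (Units.mk0 b hb), rfl⟩) hH

end Rep

end Fermat.Agent.CFT
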