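import Fermat.Agent.CFT.Coh.Sub

/-! # CFT / Coh: Hilbert 90 for level-constant cocycles.

`Ω` is a field with an action of `G` by field automorphisms, `U` a normal subgroup of finite index
which is "Galois closed": every `g` fixing `Ω^U` pointwise lies in `U`. -/

set_option autoImplicit false

namespace Fermat.Agent.CFT

open Finset

section Mul

variable {G : Type} [Group G] {Ω : Type} [Field Ω] [MulSemiringAction G Ω]

/-- the fixed elements of `U`, as a submonoid -/
def fixedSubmonoid (Ω : Type) [Field Ω] [MulSemiringAction G Ω] (U : Subgroup G) : Submonoid Ω where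
  carrier := {x | ∀ s ∈ U, s • x = x}
  mul_mem' := fun {x y} hx hy s hs => by rw [smul_mul', hx s hs, hy s hs]
  one_mem' := fun s _ => smul_one s

/-- the embedding of `Ω^U` given by a coset -/
noncomputable def cosetHom (U : Subgroup G) (q : G ⧸ U) : fixedSubmonoid Ω U →* Ω where
  toFun x := q.out • (x : Ω)
  map_one' := by simp
  map_mul' x y := by simp [smul_mul']

theorem cosetHom_mk (U : Subgroup G) (g : G) (x : fixedSubmonoid Ω U) :
    cosetHom U (g : G ⧸ U) x = g • (x : Ω) := by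
  change (Quotient.out (g : G ⧸ U)) • (x : Ω) = g • (x : Ω)
  obtain ⟨s, hs⟩ := QuotientGroup.mk_out_eq_mul U g
  rw [hs, mul_smul, x.2 s s.2]

theorem cosetHom_injective {U : Subgroup G}
    (hGal : ∀ g : G, (∀ x : Ω, (∀ s ∈ U, s • x = x) → g • x = x) → g ∈ U) :
    Function.Injective (cosetHom (Ω := Ω) U) := by
  intro q q' h
  induction q using QuotientGroup.induction_on with
  | H g =>
  induction q' using QuotientGroup.induction_on with
  | H g' =>
  rw [QuotientGroup.eq]
  apply hGal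
  intro x hx
  have := DFunLike.congr_fun h ⟨x, hx⟩
  rw [cosetHom_mk, cosetHom_mk] at this
  rw [mul_smul, ← this, inv_smul_smul]

/-- **Hilbert 90**, multiplicative form. -/
theorem hilbert90_mul {U : Subgroup G} [U.Normal] [U.FiniteIndex]
    (hGal : ∀ g : G, (∀ x : Ω, (∀ s ∈ U, s • x = x) → g • x = x) → g ∈ U)
    (c : G → Ω) (hc0 : ∀ g, c g ≠ 0) (hc : ∀ g h, c (g * h) = c g * g • c h)
    (hcU : ∀ g s, s ∈ U → c (g * s) = c g) :
    ∃ b : Ω, b ≠ 0 ∧ (∀ s ∈ U, s • b = b) ∧ ∀ g, c g = g • b / b := by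
  classical
  have : Finite (G ⧸ U) := Subgroup.finite_quotient_of_finiteIndex
  have : Fintype (G ⧸ U) := Fintype.ofFinite _
  have hli : LinearIndependent Ω (fun q : G ⧸ U => (cosetHom (Ω := Ω) U q : fixedSubmonoid Ω U → Ω)) :=
    (linearIndependent_monoidHom (fixedSubmonoid Ω U) Ω).comp _ (cosetHom_injective hGal)
  -- existence of θ
  obtain ⟨θ, hθ⟩ : ∃ θ : fixedSubmonoid Ω U, ∑ q : G ⧸ U, c q.out * cosetHom U q θ ≠ 0 := by
    by_contra hcon
    push Not at hcon
    have h0 : ∑ q : G ⧸ U, c q.out • (cosetHom (Ω := Ω) U q : fixedSubmonoid Ω U → Ω) = 0 := by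
      funext θ
      simpa using hcon θ
    exact hc0 _ (Fintype.linearIndependent_iff.1 hli _ h0 ((1 : G) : G ⧸ U))
  -- the function t on cosets
  have hout : ∀ g : G, c (Quotient.out (g : G ⧸ U)) = c g := by
    intro g
    obtain ⟨s, hs⟩ := QuotientGroup.mk_out_eq_mul U g
    rw [hs, hcU g s s.2]
  set t : G ⧸ U → Ω := fun q => c q.out * cosetHom U q θ with ht
  have htmk : ∀ g : G, t (g : G ⧸ U) = c g * g • (θ : Ω) := by
    intro g
    rw [ht]
    simp only [hout, cosetHom_mk]
  set b₀ : Ω := ∑ q : G ⧸ U, t q with hb₀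
  have hact : ∀ g : G, g • b₀ = b₀ / c g := by
    intro g
    rw [hb₀, Finset.smul_sum, Finset.sum_div, ← Equiv.sum_comp (MulAction.toPerm g) (fun q => t q / c g)]
    refine Finset.sum_congr rfl fun q _ => ?_
    induction q using QuotientGroup.induction_on with
    | H h =>
    have : (MulAction.toPerm g) (h : G ⧸ U) = ((g * h : G) : G ⧸ U) := rfl
    rw [this, htmk, htmk, hc, smul_mul', mul_smul, eq_div_iff (hc0 g)]
    ring
  have hc1 : c 1 = 1 := by
    have := hc 1 1
    rw [one_smul, mul_one] at this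
    exact (mul_eq_left₀ (hc0 1)).1 this.symm
  have hb0' : b₀ ≠ 0 := hθ
  refine ⟨b₀⁻¹, inv_ne_zero hb0', fun s hs => ?_, fun g => ?_⟩
  · have : c s = 1 := by rw [← one_mul s, hcU 1 s hs, hc1]
    rw [smul_inv'', hact, this, div_one]
  · rw [smul_inv'', hact]
    field_simp [hc0 g]

end Mul

section Rep

variable {k : Type} [CommRing k] {G : Type} [Group G] {V : Type} [AddCommGroup V] [Module k V]
  {Ω : Type} [Field Ω] [MulSemiringAction G Ω] {𝒰 : Levels G}

/-- the levels are Galois closed for the action on `Ω` -/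
def Levels.IsGaloisClosed (𝒰 : Levels G) (Ω : Type) [Field Ω] [MulSemiringAction G Ω] : Prop :=
  ∀ U ∈ 𝒰.carrier, ∀ g : G, (∀ x : Ω, (∀ s ∈ U, s • x = x) → g • x = x) → g ∈ U

/-- **Hilbert 90** for a module `V` identified by an "exponential" `E` with a `G`-stable subgroup of
`Ωˣ` containing all nonzero smooth elements of `Ω`. -/
theorem hilbert90_of_exp (hGal : 𝒰.IsGaloisClosed Ω) (ρ : Representation k G V) (E : V → Ω)
    (hEadd : ∀ x y, E (x + y) = E x * E y) (hE0 : ∀ x, E x ≠ 0)
    (hEρ : ∀ g x, E (ρ g x) = g • E x) (hEinj : Function.Injective E)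
    (hEsurj : ∀ U ∈ 𝒰.carrier, ∀ b : Ω, b ≠ 0 → (∀ s ∈ U, s • b = b) → ∃ x, E x = b) :
    Z1 𝒰 ρ ≤ B1 ρ := by
  rintro a ⟨haZ, U, hU, haU⟩
  have := 𝒰.normal U hU
  have := 𝒰.finiteIndex U hU
  have hcoc : ∀ g h, a (g * h) = a g + ρ g (a h) := by
    intro g h
    have := congrFun (LinearMap.mem_ker.1 haZ) (g, h)
    simp only [d12_apply, Pi.zero_apply] at this
    rw [sub_add_eq_add_sub, sub_eq_zero] at this
    rw [← this, add_comm]
  obtain ⟨b, hb0, hbU, hb⟩ := hilbert90_mul (hGal U hU) (fun g => E (a g)) (fun g => hE0 _)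
    (fun g h => by simp only [hcoc, hEadd, hEρ]) (fun g s hs => by simp only [haU g s hs])
  obtain ⟨x, rfl⟩ := hEsurj U hU b hb0 hbU
  refine ⟨x, ?_⟩
  funext g
  rw [d01_apply, sub_eq_iff_eq_add]
  apply hEinj
  have := hb g
  rw [eq_div_iff hb0] at this
  rw [hEadd, this, hEρ]

variable (G Ω) in
/-- `G` acting on `Ωˣ`, written additively -/
def unitsRep : Representation ℤ G (Additive Ωˣ) where
  toFun g := (MonoidHom.toAdditive
    (Units.map (MulSemiringAction.toRingHom G Ω g : Ω →* Ω))).toIntLinearMap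
  map_one' := by
    refine LinearMap.ext fun u => Additive.toMul.injective (Units.ext ?_)
    change (1 : G) • ((Additive.toMul u : Ωˣ) : Ω) = _
    rw [one_smul]
    rfl
  map_mul' g h := by
    refine LinearMap.ext fun u => Additive.toMul.injective (Units.ext ?_)
    change (g * h) • ((Additive.toMul u : Ωˣ) : Ω) = g • h • ((Additive.toMul u : Ωˣ) : Ω)
    rw [mul_smul]

@[simp] theorem unitsRep_apply (g : G) (u : Additive Ωˣ) :
    ((unitsRep G Ω g u).toMul : Ω) = g • (u.toMul : Ω) := rfl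

/-- **Hilbert 90**: `H^1(G, Ωˣ) = 0` for level-constant cochains. -/
theorem hilbert90 (hGal : 𝒰.IsGaloisClosed Ω) : Z1 𝒰 (unitsRep G Ω) ≤ B1 (unitsRep G Ω) :=
  hilbert90_of_exp hGal (unitsRep G Ω) (fun u => (u.toMul : Ω)) (fun _ _ => rfl)
    (fun u => u.toMul.ne_zero) (fun _ _ => rfl)
    (fun _ _ h => Additive.toMul.injective (Units.ext h))
    (fun _ _ b hb _ => ⟨Additive.ofMul (Units.mk0 b hb), rfl⟩)

/-- Galois closedness passes to subgroups **containing the level**; for general subgroups it has to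
be checked by hand (Krull). -/
theorem Levels.IsGaloisClosed.mono {𝒱 : Levels G} (h : 𝒰.IsGaloisClosed Ω)
    (hle : 𝒱.carrier ⊆ 𝒰.carrier) : 𝒱.IsGaloisClosed Ω := fun U hU => h U (hle hU)

end Rep

end Fermat.Agent.CFT
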