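import Fermat.Agent.CFT.Coh.InfRes2
import Fermat.Agent.CFT.F.Efface

/-!
# CFT / Coh : `[G : H]` kills the kernel of restriction to an open subgroup `H` (degrees 1, 2)

`H` is an arbitrary (not necessarily normal) open subgroup.  Explicit transfer formula:
for a 2-cocycle `f` vanishing on `H × H`,
`w g = ∑_{c ∈ G/H} ( f (g, s (g⁻¹ c)) - f (s c, (s c)⁻¹ g s (g⁻¹ c)) )` satisfies `d w = [G:H] f`
(`s` any section of `G → G/H`).
-/

set_option autoImplicit false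

namespace Fermat.Agent.CFT

variable {k : Type} [CommRing k] {G : Type} [Group G] {V : Type} [AddCommGroup V] [Module k V]
  {𝒰 : Levels G} {ρ : Representation k G V} {H : Subgroup G}

/-- `(s c)⁻¹ g s (g⁻¹ c) ∈ H` -/
theorem out_inv_mul_mul_out_mem (g : G) (c : G ⧸ H) : c.out⁻¹ * g * (g⁻¹ • c).out ∈ H := by
  have h1 : ((g * (g⁻¹ • c).out : G) : G ⧸ H) = c := by
    have : ((g * (g⁻¹ • c).out : G) : G ⧸ H) = g • (((g⁻¹ • c).out : G) : G ⧸ H) := rfl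
    rw [this, QuotientGroup.out_eq', smul_inv_smul]
  have h2 : ((c.out : G) : G ⧸ H) = ((g * (g⁻¹ • c).out : G) : G ⧸ H) := by
    rw [h1, QuotientGroup.out_eq']
  have := QuotientGroup.eq.1 h2
  rwa [← mul_assoc] at this

/-- a normal subgroup contained in `H` acts trivially on `G ⧸ H` -/
theorem smul_eq_of_mem_normal {U : Subgroup G} [hn : U.Normal] (hUH : U ≤ H) {u : G} (hu : u ∈ U)
    (c : G ⧸ H) : u • c = c := by
  induction c using QuotientGroup.induction_on with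
  | H a =>
    change ((u * a : G) : G ⧸ H) = (a : G ⧸ H)
    rw [eq_comm, QuotientGroup.eq]
    have := hn.conj_mem u hu a⁻¹
    rw [inv_inv, mul_assoc] at this
    exact hUH this

/-- the summand of the transfer formula -/
noncomputable def trTerm (H : Subgroup G) (f : G × G → V) (g : G) (c : G ⧸ H) : V :=
  f (g, (g⁻¹ • c).out) - f (c.out, c.out⁻¹ * g * (g⁻¹ • c).out)

theorem trTerm_coc {f : G × G → V} (hf : d23 ρ f = 0) (h0 : ∀ t ∈ H, ∀ t' ∈ H, f (t, t') = 0)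
    (g₁ g₂ : G) (c : G ⧸ H) :
    ρ g₁ (trTerm H f g₂ (g₁⁻¹ • c)) - trTerm H f (g₁ * g₂) c + trTerm H f g₁ c = f (g₁, g₂) := by
  have hc2 : (g₁ * g₂)⁻¹ • c = g₂⁻¹ • g₁⁻¹ • c := by rw [mul_inv_rev, mul_smul]
  simp only [trTerm, hc2, map_sub]
  set s₀ := c.out
  set s₁ := (g₁⁻¹ • c).out
  set s₂ := (g₂⁻¹ • g₁⁻¹ • c).out
  have hη₁ : s₀⁻¹ * g₁ * s₁ ∈ H := out_inv_mul_mul_out_mem g₁ c
  have hη₂ : s₁⁻¹ * g₂ * s₂ ∈ H := out_inv_mul_mul_out_mem g₂ (g₁⁻¹ • c)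
  have I1 := coc2 hf g₁ g₂ s₂
  have I2 := coc2_mul_of_vanish hf h0 s₀ hη₁ hη₂
  have I3 := coc2 hf g₁ s₁ (s₁⁻¹ * g₂ * s₂)
  have e1 : s₀⁻¹ * g₁ * s₁ * (s₁⁻¹ * g₂ * s₂) = s₀⁻¹ * (g₁ * g₂) * s₂ := by group
  have e2 : s₀ * (s₀⁻¹ * g₁ * s₁) = g₁ * s₁ := by group
  have e3 : s₁ * (s₁⁻¹ * g₂ * s₂) = g₂ * s₂ := by group
  rw [e1, e2] at I2
  rw [e3] at I3
  linear_combination (norm := abel) I1 + I2 - I3

/-- the core: a cocycle vanishing on `H × H` is killed by the index -/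
theorem index_smul_mem_B2_of_vanish (hH : ∃ U ∈ 𝒰.carrier, U ≤ H) {f : G × G → V}
    (hf : f ∈ Z2 𝒰 ρ) (h0 : ∀ t ∈ H, ∀ t' ∈ H, f (t, t') = 0) : H.index • f ∈ B2 𝒰 ρ := by
  classical
  obtain ⟨hfc, Uf, hUf, hfU⟩ := hf
  have hfc : d23 ρ f = 0 := hfc
  obtain ⟨U₀, hU₀, hU₀H⟩ := hH
  have : U₀.FiniteIndex := 𝒰.finiteIndex U₀ hU₀
  have : H.FiniteIndex := Subgroup.finiteIndex_of_le hU₀H
  have : Fintype (G ⧸ H) := Fintype.ofFinite _
  refine ⟨fun g => ∑ c : G ⧸ H, trTerm H f g c, ?_, ?_⟩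
  · obtain ⟨W, hW, hW1, hW2⟩ := 𝒰.directed U₀ hU₀ Uf hUf
    have hWn : W.Normal := 𝒰.normal W hW
    refine ⟨W, hW, fun g s hs => Finset.sum_congr rfl fun c _ => ?_⟩
    have hc : (g * s)⁻¹ • c = g⁻¹ • c := by
      rw [mul_inv_rev, mul_smul, smul_eq_of_mem_normal (hW1.trans hU₀H) (W.inv_mem hs)]
    simp only [trTerm, hc]
    set s' := (g⁻¹ • c).out
    have h1 := hfU g s' s 1 (hW2 hs) Uf.one_mem
    have h2 := hfU c.out (c.out⁻¹ * g * s') 1 (s'⁻¹ * s * s') Uf.one_mem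
      (hW2 (conj_mem' s' hs))
    have e : c.out⁻¹ * g * s' * (s'⁻¹ * s * s') = c.out⁻¹ * (g * s) * s' := by group
    rw [mul_one] at h1 h2
    rw [e] at h2
    rw [h1, h2]
  · funext g
    obtain ⟨g₁, g₂⟩ := g
    simp only [d12_apply, map_sum]
    have hre : ∑ c : G ⧸ H, ρ g₁ (trTerm H f g₂ c) = ∑ c : G ⧸ H, ρ g₁ (trTerm H f g₂ (g₁⁻¹ • c)) :=
      (Equiv.sum_comp (MulAction.toPerm g₁⁻¹) fun c => ρ g₁ (trTerm H f g₂ c)).symm
    rw [hre, ← Finset.sum_sub_distrib, ← Finset.sum_add_distrib,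
      Finset.sum_congr rfl fun c _ => trTerm_coc hfc h0 g₁ g₂ c, Finset.sum_const,
      Finset.card_univ, Subgroup.index_eq_card, Nat.card_eq_fintype_card]
    rfl

/-- **`[G:H]` kills `ker (H²(G,V) → H²(H,V))`.** -/
theorem index_smul_mem_B2 (hH : ∃ U ∈ 𝒰.carrier, U ≤ H) (hρ : IsSmooth 𝒰 ρ) {x : G × G → V}
    (hx : x ∈ Z2 𝒰 ρ)
    (hres : ∃ u ∈ C1 k V 𝒰, ∀ t ∈ H, ∀ t' ∈ H, x (t, t') = d12 ρ u (t, t')) :
    H.index • x ∈ B2 𝒰 ρ := by
  obtain ⟨u, hu, hxu⟩ := hres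
  have hdu : d12 ρ u ∈ B2 𝒰 ρ := ⟨u, hu, rfl⟩
  have hf : x - d12 ρ u ∈ Z2 𝒰 ρ := (Z2 𝒰 ρ).sub_mem hx (B2_le_Z2 hρ hdu)
  have h1 := index_smul_mem_B2_of_vanish hH hf (fun t ht t' ht' => by
    rw [Pi.sub_apply, hxu t ht t' ht', sub_self])
  have h2 : H.index • x = H.index • (x - d12 ρ u) + H.index • d12 ρ u := by
    rw [← smul_add, sub_add_cancel]
  rw [h2]
  exact (B2 𝒰 ρ).add_mem h1 ((B2 𝒰 ρ).toAddSubmonoid.nsmul_mem hdu _)

/-- `index_smul_mem_B2` in the language of `Levels.sub`. -/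
theorem index_smul_mem_B2' (hH : ∃ U ∈ 𝒰.carrier, U ≤ H) (hρ : IsSmooth 𝒰 ρ) {x : G × G → V}
    (hx : x ∈ Z2 𝒰 ρ) (hres : x ∘ Prod.map H.subtype H.subtype ∈ B2 (𝒰.sub H) (resRep ρ H)) :
    H.index • x ∈ B2 𝒰 ρ := by
  obtain ⟨u, hu, hxu⟩ := hres
  obtain ⟨u', hu', rfl⟩ := exists_extend_C1 hH hu
  refine index_smul_mem_B2 hH hρ hx ⟨u', hu', fun t ht t' ht' => ?_⟩
  exact (congrFun hxu (⟨t, ht⟩, ⟨t', ht'⟩)).symm

/-- **`[G:H]` kills `ker (H¹(G,V) → H¹(H,V))`** (`H` of finite index, no levels needed). -/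
theorem index_smul_mem_B1 [H.FiniteIndex] {a : G → V} (ha : d12 ρ a = 0)
    (hres : ∃ v : V, ∀ t ∈ H, a t = ρ t v - v) : H.index • a ∈ B1 ρ := by
  classical
  have : Fintype (G ⧸ H) := Fintype.ofFinite _
  obtain ⟨v, hv⟩ := hres
  have hmul : ∀ g g', a (g * g') = a g + ρ g (a g') := fun g g' => by
    have := congrFun ha (g, g')
    simp only [d12_apply, Pi.zero_apply] at this
    linear_combination (norm := abel) -this
  -- `b = a - d v` vanishes on `H`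
  let b : G → V := fun g => a g - (ρ g v - v)
  have hbmul : ∀ g g', b (g * g') = b g + ρ g (b g') := fun g g' => by
    simp only [b, hmul, map_mul, Module.End.mul_apply, map_sub]
    abel
  have hbH : ∀ t ∈ H, b t = 0 := fun t ht => by simp only [b, hv t ht, sub_self]
  have hbR : ∀ g s, s ∈ H → b (g * s) = b g := fun g s hs => by
    rw [hbmul, hbH s hs, map_zero, add_zero]
  refine ⟨H.index • v - ∑ c : G ⧸ H, b c.out, ?_⟩
  funext g
  have h1 : ∑ c : G ⧸ H, ρ g (b c.out) = ∑ c : G ⧸ H, (b (g • c).out - b g) :=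
    Finset.sum_congr rfl fun c _ => by
      rw [apply_smul_out hbR, hbmul]
      abel
  have h2 : ∑ c : G ⧸ H, b (g • c).out = ∑ c : G ⧸ H, b c.out :=
    Equiv.sum_comp (MulAction.toPerm g) fun c : G ⧸ H => b c.out
  simp only [d01_apply, map_sub, map_sum, map_nsmul, Pi.smul_apply]
  rw [h1, Finset.sum_sub_distrib, h2, Finset.sum_const, Finset.card_univ,
    ← Nat.card_eq_fintype_card, ← Subgroup.index_eq_card]
  simp only [b, smul_sub]
  abel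

/-- Bezout: an element killed by two coprime integers modulo a subgroup lies in the subgroup. -/
theorem mem_of_coprime_nsmul_mem {M : Type*} [AddCommGroup M] (B : AddSubgroup M) {x : M}
    {m n : ℕ} (hmn : Nat.Coprime m n) (hm : m • x ∈ B) (hn : n • x ∈ B) : x ∈ B := by
  have h := Nat.gcd_eq_gcd_ab m n
  rw [hmn.gcd_eq_one] at h
  have hx : x = (Nat.gcdA m n) • (m • x) + (Nat.gcdB m n) • (n • x) := by
    rw [← natCast_zsmul x m, ← natCast_zsmul x n, smul_smul, smul_smul, ← add_smul,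
      mul_comm _ (m : ℤ), mul_comm _ (n : ℤ), ← h]
    simp
  rw [hx]
  exact B.add_mem (B.zsmul_mem hm _) (B.zsmul_mem hn _)

/-- Sylow-type reduction: a class killed by `n` and trivial on an open subgroup of index prime
to `n` is trivial. -/
theorem mem_B2_of_coprime_index (hH : ∃ U ∈ 𝒰.carrier, U ≤ H) (hρ : IsSmooth 𝒰 ρ)
    {x : G × G → V} (hx : x ∈ Z2 𝒰 ρ)
    (hres : x ∘ Prod.map H.subtype H.subtype ∈ B2 (𝒰.sub H) (resRep ρ H)) {n : ℕ}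
    (hn : n • x ∈ B2 𝒰 ρ) (hcop : Nat.Coprime H.index n) : x ∈ B2 𝒰 ρ :=
  mem_of_coprime_nsmul_mem (B2 𝒰 ρ).toAddSubgroup hcop (index_smul_mem_B2' hH hρ hx hres) hn

end Fermat.Agent.CFT
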