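import Fermat.Agent.CFT.Coh.Sub

/-! # CFT / Coh: cyclic classes `(a, χ)`.

`χ : G →* Multiplicative (ZMod n)` a character, `S = ker χ`, `σ` with `χ σ = 1 ∈ ℤ/n`.
For `a ∈ V^G` the 2-cocycle `cyc χ a (g,h) = carry(g,h) • a`,
`carry(g,h) = (⌊χ g⌋ + ⌊χ h⌋ - ⌊χ (gh)⌋)/n ∈ {0,1}`.

* `cyc_mem_Z2`;
* (A) `cyc_mem_B2_of_norm`: `a = N b`, `b ∈ V^S` implies `cyc χ a ∈ B2`;
* (B) `exists_norm_of_cyc_mem_B2`: if `H^1(S,V) = 0` and `cyc χ a ∈ B2` then `a ∈ N (V^S)`.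
-/

set_option autoImplicit false
set_option linter.unusedSectionVars false

namespace Fermat.Agent.CFT

open Finset

variable {k : Type} [CommRing k] {G : Type} [Group G] {V : Type} [AddCommGroup V] [Module k V]
  {𝒰 : Levels G} {ρ : Representation k G V} {n : ℕ} [NeZero n]
  (χ : G →* Multiplicative (ZMod n))

/-- the lift of `χ g` to `[0,n)` -/
def chiVal (g : G) : ℕ := (Multiplicative.toAdd (χ g)).val

/-- the carry `(⌊χ g⌋ + ⌊χ h⌋ - ⌊χ (gh)⌋)/n` -/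
def carry (g h : G) : ℕ := (chiVal χ g + chiVal χ h) / n

theorem chiVal_lt (g : G) : chiVal χ g < n := ZMod.val_lt _

theorem chiVal_mul (g h : G) : chiVal χ (g * h) = (chiVal χ g + chiVal χ h) % n := by
  simp [chiVal, map_mul, toAdd_mul, ZMod.val_add]

theorem chiVal_add (g h : G) :
    chiVal χ g + chiVal χ h = chiVal χ (g * h) + n * carry χ g h := by
  rw [chiVal_mul, carry, Nat.mod_add_div]

theorem chiVal_eq_of_chi_eq {g h : G} (e : χ g = χ h) : chiVal χ g = chiVal χ h := by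
  rw [chiVal, chiVal, e]

theorem chiVal_of_mem_ker {s : G} (hs : s ∈ χ.ker) : chiVal χ s = 0 := by
  rw [chiVal, MonoidHom.mem_ker.1 hs]
  simp

theorem chiVal_mul_ker (g : G) {s : G} (hs : s ∈ χ.ker) : chiVal χ (g * s) = chiVal χ g :=
  chiVal_eq_of_chi_eq χ (by rw [map_mul, MonoidHom.mem_ker.1 hs, mul_one])

theorem carry_cocycle (g h j : G) :
    carry χ h j + carry χ g (h * j) = carry χ (g * h) j + carry χ g h := by
  have e1 := chiVal_add χ h j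
  have e2 := chiVal_add χ g (h * j)
  have e3 := chiVal_add χ (g * h) j
  have e4 := chiVal_add χ g h
  rw [mul_assoc] at e3
  have : n * (carry χ h j + carry χ g (h * j)) = n * (carry χ (g * h) j + carry χ g h) := by
    rw [mul_add, mul_add]
    omega
  exact Nat.eq_of_mul_eq_mul_left (Nat.pos_of_ne_zero (NeZero.ne n)) this

theorem carry_ker_right (g : G) {s : G} (hs : s ∈ χ.ker) : carry χ g s = 0 := by
  rw [carry, chiVal_of_mem_ker χ hs, add_zero, Nat.div_eq_of_lt (chiVal_lt χ g)]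

theorem carry_ker_left (g : G) {s : G} (hs : s ∈ χ.ker) : carry χ s g = 0 := by
  rw [carry, chiVal_of_mem_ker χ hs, zero_add, Nat.div_eq_of_lt (chiVal_lt χ g)]

/-- the cyclic 2-cocycle `(a, χ)` -/
def cyc (a : V) : G × G → V := fun g => carry χ g.1 g.2 • a

theorem cyc_apply (a : V) (g h : G) : cyc χ a (g, h) = carry χ g h • a := rfl

theorem cyc_mem_C2 (hχ : ∃ U ∈ 𝒰.carrier, U ≤ χ.ker) (a : V) : cyc χ a ∈ C2 k V 𝒰 := by
  obtain ⟨U, hU, hle⟩ := hχ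
  refine ⟨U, hU, fun g₁ g₂ s₁ s₂ h₁ h₂ => ?_⟩
  rw [cyc_apply, cyc_apply, carry, carry, chiVal_mul_ker χ _ (hle h₁), chiVal_mul_ker χ _ (hle h₂)]

theorem cyc_mem_Z2 (hχ : ∃ U ∈ 𝒰.carrier, U ≤ χ.ker) {a : V} (ha : ∀ g, ρ g a = a) :
    cyc χ a ∈ Z2 𝒰 ρ := by
  refine ⟨?_, cyc_mem_C2 χ hχ a⟩
  rw [SetLike.mem_coe, LinearMap.mem_ker]
  funext ⟨g, h, j⟩
  simp only [d23_apply, cyc_apply, map_nsmul, ha, Pi.zero_apply]
  have := carry_cocycle χ g h j
  have e : (carry χ h j + carry χ g (h * j)) • a = (carry χ (g * h) j + carry χ g h) • a := by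
    rw [this]
  rw [add_smul, add_smul] at e
  rw [sub_add_eq_add_sub, e]
  abel

section sigma

variable {χ} {σ : G} (hσ : χ σ = Multiplicative.ofAdd 1)
include hσ

theorem chi_pow (m : ℕ) : χ (σ ^ m) = Multiplicative.ofAdd (m : ZMod n) := by
  rw [map_pow, hσ, ← ofAdd_nsmul, nsmul_eq_mul, mul_one]

theorem chi_pow_chiVal (g : G) : χ (σ ^ chiVal χ g) = χ g := by
  rw [chi_pow hσ, chiVal, ZMod.natCast_zmod_val]
  rfl

theorem pow_n_mem_ker : σ ^ n ∈ χ.ker := by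
  rw [MonoidHom.mem_ker, chi_pow hσ, ZMod.natCast_self]
  rfl

omit hσ in
theorem rho_eq_of_chi_eq {b : V} (hb : ∀ s ∈ χ.ker, ρ s b = b) {g g' : G} (e : χ g = χ g') :
    ρ g b = ρ g' b := by
  have hs : g'⁻¹ * g ∈ χ.ker := by
    rw [MonoidHom.mem_ker, map_mul, map_inv, e, inv_mul_cancel]
  have : g = g' * (g'⁻¹ * g) := by group
  rw [this, map_mul, Module.End.mul_apply, hb _ hs]

variable (ρ σ) in
omit hσ in
/-- partial norms `∑_{i<m} σ^i b` -/
def pnorm (m : ℕ) (b : V) : V := ∑ i ∈ range m, ρ (σ ^ i) b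

theorem pnorm_n_add {b : V} (hb : ∀ s ∈ χ.ker, ρ s b = b) (m : ℕ) :
    pnorm ρ σ (n + m) b = pnorm ρ σ n b + pnorm ρ σ m b := by
  rw [pnorm, sum_range_add]
  congr 1
  refine sum_congr rfl fun i _ => rho_eq_of_chi_eq hb ?_
  rw [pow_add, map_mul, MonoidHom.mem_ker.1 (pow_n_mem_ker hσ), one_mul]

theorem pnorm_add_mul {b : V} (hb : ∀ s ∈ χ.ker, ρ s b = b) (m c : ℕ) :
    pnorm ρ σ (m + n * c) b = pnorm ρ σ m b + c • pnorm ρ σ n b := by
  induction c with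
  | zero => simp
  | succ c ih =>
    have : m + n * (c + 1) = n + (m + n * c) := by ring
    rw [this, pnorm_n_add hσ hb, ih, succ_nsmul]
    abel

theorem rho_pnorm {b : V} (hb : ∀ s ∈ χ.ker, ρ s b = b) (g : G) (m : ℕ) :
    pnorm ρ σ (chiVal χ g) b + ρ g (pnorm ρ σ m b) = pnorm ρ σ (chiVal χ g + m) b := by
  rw [pnorm, pnorm, pnorm, sum_range_add, map_sum]
  congr 1
  refine sum_congr rfl fun i _ => ?_
  rw [← Module.End.mul_apply, ← map_mul]
  refine rho_eq_of_chi_eq hb ?_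
  rw [map_mul, pow_add, map_mul, chi_pow_chiVal hσ]

/-- (A), explicit form -/
theorem cyc_pnorm_eq_d12 {b : V} (hb : ∀ s ∈ χ.ker, ρ s b = b) :
    cyc χ (pnorm ρ σ n b) = d12 ρ (fun g => pnorm ρ σ (chiVal χ g) b) := by
  funext ⟨g, h⟩
  rw [cyc_apply, d12_apply]
  have h1 := rho_pnorm (ρ := ρ) hσ hb g (chiVal χ h)
  rw [chiVal_add, pnorm_add_mul hσ hb] at h1
  simp only
  rw [eq_comm, sub_add_eq_add_sub, sub_eq_iff_eq_add, add_comm (ρ g _), h1, add_comm]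

/-- (A): norms give trivial cyclic classes -/
theorem cyc_mem_B2_of_norm (hχ : ∃ U ∈ 𝒰.carrier, U ≤ χ.ker) {b : V}
    (hb : ∀ s ∈ χ.ker, ρ s b = b) : cyc χ (pnorm ρ σ n b) ∈ B2 𝒰 ρ := by
  obtain ⟨U, hU, hle⟩ := hχ
  refine ⟨fun g => pnorm ρ σ (chiVal χ g) b, ⟨U, hU, fun g s hs => ?_⟩,
    (cyc_pnorm_eq_d12 hσ hb).symm⟩
  simp only [chiVal_mul_ker χ g (hle hs)]

theorem chiVal_pow (m : ℕ) : chiVal χ (σ ^ m) = m % n := by
  rw [chiVal, chi_pow hσ, toAdd_ofAdd, ZMod.val_natCast]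

/-- (B): if `H^1(S,V) = 0`, a trivial cyclic class comes from a norm -/
theorem exists_norm_of_cyc_mem_B2
    (h1 : Z1 (𝒰.sub χ.ker) (resRep ρ χ.ker) ≤ B1 (resRep ρ χ.ker)) {a : V}
    (ha : ∀ g, ρ g a = a) (hB : cyc χ a ∈ B2 𝒰 ρ) :
    ∃ b : V, (∀ s ∈ χ.ker, ρ s b = b) ∧ a = pnorm ρ σ n b := by
  rcases eq_or_ne n 1 with hn1 | hn1
  · refine ⟨a, fun s _ => ha s, ?_⟩
    rw [hn1, pnorm, sum_range_one, pow_zero, map_one, Module.End.one_apply]
  obtain ⟨φ, hφC, hφ⟩ := hB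
  have hres : φ ∘ χ.ker.subtype ∈ Z1 (𝒰.sub χ.ker) (resRep ρ χ.ker) := by
    refine ⟨?_, res_mem_C1 _ hφC⟩
    rw [SetLike.mem_coe, LinearMap.mem_ker]
    funext ⟨s, t⟩
    have := congrFun hφ ((s : G), (t : G))
    rw [cyc_apply, carry_ker_right χ _ t.2, zero_smul] at this
    exact this
  obtain ⟨v, hv⟩ := h1 hres
  set ψ : G → V := φ - d01 ρ v with hψ
  have hψd : d12 ρ ψ = cyc χ a := by rw [hψ, map_sub, d12_d01, sub_zero, hφ]
  have hψS : ∀ s ∈ χ.ker, ψ s = 0 := by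
    intro s hs
    have := congrFun hv ⟨s, hs⟩
    rw [hψ, Pi.sub_apply, sub_eq_zero]
    exact this.symm
  have key : ∀ g h, ρ g (ψ h) - ψ (g * h) + ψ g = carry χ g h • a := fun g h =>
    congrFun hψd (g, h)
  have hr : ∀ g, ∀ s ∈ χ.ker, ψ (g * s) = ψ g := by
    intro g s hs
    have := key g s
    rw [hψS s hs, map_zero, carry_ker_right χ g hs, zero_smul, zero_sub, neg_add_eq_zero] at this
    exact this
  have hl : ∀ g, ∀ s ∈ χ.ker, ψ (s * g) = ρ s (ψ g) := by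
    intro g s hs
    have := key s g
    rw [hψS s hs, add_zero, carry_ker_left χ g hs, zero_smul, sub_eq_zero] at this
    exact this.symm
  have hinv : ∀ g, ∀ s ∈ χ.ker, ρ s (ψ g) = ψ g := by
    intro g s hs
    rw [← hl g s hs]
    have e : s * g = g * (g⁻¹ * s * g⁻¹⁻¹) := by group
    rw [e]
    exact hr g _ (χ.normal_ker.conj_mem s hs g⁻¹)
  have hσ1 : chiVal χ σ = 1 := by
    rw [chiVal, hσ, toAdd_ofAdd, ZMod.val_one'' hn1]
  have hn0 : 0 < n := Nat.pos_of_ne_zero (NeZero.ne n)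
  have claim : ∀ m : ℕ, ψ (σ ^ m) + (m / n) • a = pnorm ρ σ m (ψ σ) := by
    intro m
    induction m with
    | zero =>
      rw [pow_zero, hψS 1 (one_mem _), Nat.zero_div, zero_smul, add_zero, pnorm, range_zero,
        sum_empty]
    | succ m ih =>
      have h2 := key (σ ^ m) σ
      have hdiv : (m + 1) / n = carry χ (σ ^ m) σ + m / n := by
        rw [carry, chiVal_pow hσ, hσ1, ← Nat.add_mul_div_left _ _ hn0]
        congr 1
        have := Nat.mod_add_div m n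
        omega
      rw [pnorm, sum_range_succ, ← pnorm, ← ih, hdiv, add_smul, ← h2, pow_succ]
      abel
  refine ⟨ψ σ, hinv σ, ?_⟩
  have := claim n
  rw [hψS _ (pow_n_mem_ker hσ), Nat.div_self hn0, one_smul, zero_add] at this
  exact this

end sigma

end Fermat.Agent.CFT
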