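import Fermat.Agent.CFT.Coh.Cyclic

/-! # CFT / Coh: a 2-cocycle inflated from the cyclic quotient `G / ker χ` is cohomologous to a
cyclic class `(a, χ)`, `a = ∑_{i<n} y(σ^i, σ)`. -/

set_option autoImplicit false
set_option linter.unusedSectionVars false

namespace Fermat.Agent.CFT

open Finset

variable {k : Type} [CommRing k] {G : Type} [Group G] {V : Type} [AddCommGroup V] [Module k V]
  {𝒰 : Levels G} {ρ : Representation k G V} {n : ℕ} [NeZero n]
  {χ : G →* Multiplicative (ZMod n)} {σ : G}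

/-- partial sums `∑_{i<m} y(σ^i, σ)` -/
def psum (σ : G) (y : G × G → V) (m : ℕ) : V := ∑ i ∈ range m, y (σ ^ i, σ)

section

variable {y : G × G → V}
  (hy1 : ∀ g h s s', s ∈ χ.ker → s' ∈ χ.ker → y (g * s, h * s') = y (g, h))
include hy1

theorem infl_congr {g g' h h' : G} (e : χ g = χ g') (e' : χ h = χ h') : y (g, h) = y (g', h') := by
  have hs : g'⁻¹ * g ∈ χ.ker := by
    rw [MonoidHom.mem_ker, map_mul, map_inv, e, inv_mul_cancel]
  have hs' : h'⁻¹ * h ∈ χ.ker := by
    rw [MonoidHom.mem_ker, map_mul, map_inv, e', inv_mul_cancel]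
  have e1 : g = g' * (g'⁻¹ * g) := by group
  have e2 : h = h' * (h'⁻¹ * h) := by group
  rw [e1, e2, hy1 _ _ _ _ hs hs']

variable (hσ : χ σ = Multiplicative.ofAdd 1)
include hσ

theorem psum_n_add (m : ℕ) : psum σ y (n + m) = psum σ y n + psum σ y m := by
  rw [psum, sum_range_add]
  congr 1
  refine sum_congr rfl fun i _ => infl_congr hy1 ?_ rfl
  rw [pow_add, map_mul, MonoidHom.mem_ker.1 (pow_n_mem_ker hσ), one_mul]

theorem psum_add_mul (m c : ℕ) : psum σ y (m + n * c) = psum σ y m + c • psum σ y n := by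
  induction c with
  | zero => simp
  | succ c ih =>
    have : m + n * (c + 1) = n + (m + n * c) := by ring
    rw [this, psum_n_add hy1 hσ, ih, succ_nsmul]
    abel

theorem psum_shift (g : G) (m : ℕ) :
    psum σ y (chiVal χ g) + ∑ i ∈ range m, y (g * σ ^ i, σ) = psum σ y (chiVal χ g + m) := by
  rw [psum, psum, sum_range_add]
  congr 1
  refine sum_congr rfl fun i _ => infl_congr hy1 ?_ rfl
  rw [map_mul, pow_add, map_mul, chi_pow_chiVal hσ]

end

theorem rho_psum {y : G × G → V} (hy : d23 ρ y = 0) (g : G) (m : ℕ) :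
    ρ g (psum σ y m) = ∑ i ∈ range m, y (g * σ ^ i, σ) - y (g, σ ^ m) + y (g, 1) := by
  induction m with
  | zero => simp [psum]
  | succ m ih =>
    have h := congrFun hy (g, σ ^ m, σ)
    simp only [d23_apply, Pi.zero_apply] at h
    rw [psum, sum_range_succ, map_add, ← psum, ih, sum_range_succ, pow_succ]
    rw [sub_eq_zero] at h
    have h' : ρ g (y (σ ^ m, σ)) = y (g, σ ^ m) + y (g * σ ^ m, σ) - y (g, σ ^ m * σ) := by
      rw [← h]; abel
    rw [h']
    abel

/-- a cocycle inflated from `G / ker χ` is cohomologous to a cyclic class -/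
theorem exists_cyc_of_infl (hσ : χ σ = Multiplicative.ofAdd 1)
    (hχ : ∃ U ∈ 𝒰.carrier, U ≤ χ.ker) {y : G × G → V} (hy : d23 ρ y = 0)
    (hy1 : ∀ g h s s', s ∈ χ.ker → s' ∈ χ.ker → y (g * s, h * s') = y (g, h)) :
    ∃ a : V, (∀ g, ρ g a = a) ∧ y - cyc χ a ∈ B2 𝒰 ρ := by
  have hg1 : ∀ g, y (g, 1) = ρ g (y (1, 1)) := by
    intro g
    have h := congrFun hy (g, 1, 1)
    simp only [d23_apply, Pi.zero_apply, mul_one] at h
    rw [sub_add_cancel, sub_eq_zero] at h
    exact h.symm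
  refine ⟨psum σ y n, fun g => ?_, ?_⟩
  · have h1 := psum_shift hy1 hσ g n
    rw [add_comm (chiVal χ g) n, psum_n_add hy1 hσ, add_comm] at h1
    have h2 : y (g, σ ^ n) = y (g, 1) :=
      infl_congr hy1 rfl (by rw [MonoidHom.mem_ker.1 (pow_n_mem_ker hσ), map_one])
    rw [rho_psum hy, h2, sub_add_cancel]
    exact add_right_cancel h1
  · obtain ⟨U, hU, hle⟩ := hχ
    refine ⟨fun g => y (1, 1) - psum σ y (chiVal χ g), ⟨U, hU, fun g s hs => ?_⟩, ?_⟩
    · simp only [chiVal_mul_ker χ g (hle hs)]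
    · funext ⟨g, h⟩
      have h1 := psum_shift hy1 hσ g (chiVal χ h)
      rw [chiVal_add, psum_add_mul hy1 hσ] at h1
      have h2 : y (g, σ ^ chiVal χ h) = y (g, h) := infl_congr hy1 rfl (chi_pow_chiVal hσ h)
      have h3 := rho_psum (σ := σ) hy g (chiVal χ h)
      rw [h2, hg1] at h3
      simp only [d12_apply, Pi.sub_apply, cyc_apply, map_sub, h3]
      have h4 : ∑ i ∈ range (chiVal χ h), y (g * σ ^ i, σ)
          = psum σ y (chiVal χ (g * h)) + carry χ g h • psum σ y n - psum σ y (chiVal χ g) := by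
        rw [← h1]; abel
      rw [h4]
      abel

end Fermat.Agent.CFT
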