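import Fermat.Agent.CFT.F.Basic

/-! # CFT / Coh: levels on a subgroup, restriction of cochains. -/

set_option autoImplicit false

namespace Fermat.Agent.CFT

variable {k : Type} [CommRing k] {G : Type} [Group G] {V : Type} [AddCommGroup V] [Module k V]

/-- the induced level structure on a subgroup -/
def Levels.sub (𝒰 : Levels G) (H : Subgroup G) : Levels ↥H where
  carrier := {W | ∃ U ∈ 𝒰.carrier, W = U.subgroupOf H}
  normal := by
    rintro _ ⟨U, hU, rfl⟩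
    have := 𝒰.normal U hU
    infer_instance
  finiteIndex := by
    rintro _ ⟨U, hU, rfl⟩
    have := 𝒰.finiteIndex U hU
    infer_instance
  nonempty := by
    obtain ⟨U, hU⟩ := 𝒰.nonempty
    exact ⟨_, U, hU, rfl⟩
  directed := by
    rintro _ ⟨U, hU, rfl⟩ _ ⟨U', hU', rfl⟩
    obtain ⟨W, hW, h1, h2⟩ := 𝒰.directed U hU U' hU'
    exact ⟨_, ⟨W, hW, rfl⟩, Subgroup.comap_mono h1, Subgroup.comap_mono h2⟩

variable {𝒰 : Levels G} {ρ : Representation k G V} (H : Subgroup G)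

theorem Levels.subgroupOf_mem_sub {U : Subgroup G} (hU : U ∈ 𝒰.carrier) :
    U.subgroupOf H ∈ (𝒰.sub H).carrier := ⟨U, hU, rfl⟩

theorem Levels.sub_cont :
    ∀ U ∈ 𝒰.carrier, ∃ W ∈ (𝒰.sub H).carrier, W ≤ U.comap H.subtype :=
  fun U hU => ⟨_, ⟨U, hU, rfl⟩, le_rfl⟩

/-- the restriction of a representation to a subgroup -/
abbrev resRep (ρ : Representation k G V) (H : Subgroup G) : Representation k ↥H V :=
  ρ.comp H.subtype

theorem IsSmooth.sub (hρ : IsSmooth 𝒰 ρ) : IsSmooth (𝒰.sub H) (resRep ρ H) :=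
  hρ.comp_hom H.subtype (Levels.sub_cont H)

theorem res_mem_C1 {a : G → V} (ha : a ∈ C1 k V 𝒰) : a ∘ H.subtype ∈ C1 k V (𝒰.sub H) :=
  comp_hom_mem_C1 H.subtype (Levels.sub_cont H) ha

theorem res_mem_C2 {a : G × G → V} (ha : a ∈ C2 k V 𝒰) :
    a ∘ Prod.map H.subtype H.subtype ∈ C2 k V (𝒰.sub H) :=
  comp_hom_mem_C2 H.subtype (Levels.sub_cont H) ha

theorem res_mem_Z1 {a : G → V} (ha : a ∈ Z1 𝒰 ρ) : a ∘ H.subtype ∈ Z1 (𝒰.sub H) (resRep ρ H) :=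
  comp_hom_mem_Z1 H.subtype (Levels.sub_cont H) ha

theorem res_mem_Z2 {a : G × G → V} (ha : a ∈ Z2 𝒰 ρ) :
    a ∘ Prod.map H.subtype H.subtype ∈ Z2 (𝒰.sub H) (resRep ρ H) :=
  comp_hom_mem_Z2 H.subtype (Levels.sub_cont H) ha

theorem res_mem_B1 {a : G → V} (ha : a ∈ B1 ρ) : a ∘ H.subtype ∈ B1 (resRep ρ H) :=
  comp_hom_mem_B1 H.subtype ha

theorem res_mem_B2 {a : G × G → V} (ha : a ∈ B2 𝒰 ρ) :
    a ∘ Prod.map H.subtype H.subtype ∈ B2 (𝒰.sub H) (resRep ρ H) :=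
  comp_hom_mem_B2 H.subtype (Levels.sub_cont H) ha

end Fermat.Agent.CFT
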