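import Mathlib

/-!
# CFT / Coh : the group theory behind the "Sylow + `p`-tower" dévissage

`U` a normal subgroup of finite index of `G`.  Every subgroup `K ⊇ U` contains a subgroup `H ⊇ U`
of index prime to `p` with `[H : U]` a power of `p`, and `H` is reached from `U` by a tower of
normal steps of index `p`; each step carries a surjective character to `ZMod p`.
-/

set_option autoImplicit false

namespace Fermat.Agent.CFT

variable {G : Type*} [Group G] {p : ℕ}

/-- the subgroup of `G` between `U` and `K` attached to a subgroup of `K / U` -/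
def liftSub (U K : Subgroup G) [(U.subgroupOf K).Normal] (T : Subgroup (↥K ⧸ U.subgroupOf K)) :
    Subgroup G :=
  (T.comap (QuotientGroup.mk' (U.subgroupOf K))).map K.subtype

section liftSub

variable {U K : Subgroup G} [(U.subgroupOf K).Normal] (T : Subgroup (↥K ⧸ U.subgroupOf K))

theorem liftSub_le : liftSub U K T ≤ K := Subgroup.map_subtype_le _

theorem liftSub_subgroupOf :
    (liftSub U K T).subgroupOf K = T.comap (QuotientGroup.mk' (U.subgroupOf K)) :=
  Subgroup.comap_map_eq_self_of_injective K.subtype_injective _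

theorem le_liftSub (hUK : U ≤ K) : U ≤ liftSub U K T := by
  intro u hu
  refine ⟨⟨u, hUK hu⟩, ?_, rfl⟩
  change QuotientGroup.mk' (U.subgroupOf K) ⟨u, hUK hu⟩ ∈ T
  have : QuotientGroup.mk' (U.subgroupOf K) ⟨u, hUK hu⟩ = 1 :=
    (QuotientGroup.eq_one_iff _).2 (Subgroup.mem_subgroupOf.2 hu)
  rw [this]
  exact T.one_mem

theorem liftSub_relIndex : (liftSub U K T).relIndex K = T.index := by
  rw [Subgroup.relIndex, liftSub_subgroupOf,
    Subgroup.index_comap_of_surjective _ (QuotientGroup.mk'_surjective _)]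

theorem liftSub_normal [T.Normal] : ((liftSub U K T).subgroupOf K).Normal := by
  rw [liftSub_subgroupOf]
  infer_instance

end liftSub

/-- a normal subgroup of index `p` in a `p`-group, relative version -/
theorem exists_normal_relIndex_prime [hp : Fact p.Prime] {U H : Subgroup G} [U.Normal]
    (hUH : U ≤ H) {n : ℕ} (h : U.relIndex H = p ^ (n + 1)) :
    ∃ M : Subgroup G, U ≤ M ∧ M ≤ H ∧ (M.subgroupOf H).Normal ∧ M.relIndex H = p ∧
      U.relIndex M = p ^ n := by
  have hcard : Nat.card (↥H ⧸ U.subgroupOf H) = p ^ (n + 1) := h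
  have hfin : Finite (↥H ⧸ U.subgroupOf H) :=
    Nat.finite_of_card_ne_zero (by rw [hcard]; exact pow_ne_zero _ hp.out.ne_zero)
  obtain ⟨T, hT⟩ := Sylow.exists_subgroup_card_pow_prime (G := ↥H ⧸ U.subgroupOf H) p (n := n)
    (by rw [hcard]; exact pow_dvd_pow p (Nat.le_succ n))
  have hidx : T.index = p := by
    have := T.card_mul_index
    rw [hT, hcard, pow_succ] at this
    exact Nat.eq_of_mul_eq_mul_left (pow_pos hp.out.pos n) this
  have hTn : T.Normal := Subgroup.normal_of_index_eq_minFac_card (by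
    rw [hidx, hcard, hp.out.pow_minFac (Nat.succ_ne_zero n)])
  refine ⟨liftSub U H T, le_liftSub T hUH, liftSub_le T, liftSub_normal T, ?_, ?_⟩
  · rw [liftSub_relIndex, hidx]
  · have := Subgroup.relIndex_mul_relIndex U (liftSub U H T) H (le_liftSub T hUH) (liftSub_le T)
    rw [liftSub_relIndex, hidx, h, pow_succ] at this
    exact Nat.eq_of_mul_eq_mul_right hp.out.pos this

/-- a Sylow subgroup, relative version -/
theorem exists_sylow_between [hp : Fact p.Prime] {U K : Subgroup G} [U.Normal] [U.FiniteIndex]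
    (hUK : U ≤ K) :
    ∃ H : Subgroup G, U ≤ H ∧ H ≤ K ∧ Nat.Coprime (H.relIndex K) p ∧ ∃ n, U.relIndex H = p ^ n := by
  have hfin : Finite (↥K ⧸ U.subgroupOf K) := inferInstance
  obtain ⟨S⟩ : Nonempty (Sylow p (↥K ⧸ U.subgroupOf K)) := inferInstance
  obtain ⟨n, hn⟩ := IsPGroup.iff_card.1 S.isPGroup'
  have hnd : ¬ p ∣ (S : Subgroup (↥K ⧸ U.subgroupOf K)).index := S.not_dvd_index
  refine ⟨liftSub U K S, le_liftSub _ hUK, liftSub_le _, ?_, n, ?_⟩
  · rw [liftSub_relIndex]
    exact ((Nat.Prime.coprime_iff_not_dvd hp.out).2 hnd).symm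
  · have h1 := Subgroup.relIndex_mul_relIndex U (liftSub U K (S : Subgroup _)) K
      (le_liftSub _ hUK) (liftSub_le _)
    have h2 := (S : Subgroup (↥K ⧸ U.subgroupOf K)).card_mul_index
    have h3 : Nat.card (↥K ⧸ U.subgroupOf K) = U.relIndex K := rfl
    rw [liftSub_relIndex, ← h3, ← h2, hn] at h1
    have hpos : 0 < (S : Subgroup (↥K ⧸ U.subgroupOf K)).index :=
      Nat.pos_of_ne_zero (fun h0 => hnd (by rw [h0]; exact dvd_zero p))
    exact Nat.eq_of_mul_eq_mul_right hpos h1

/-- **`p`-tower induction.** -/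
theorem pTower_induction [hp : Fact p.Prime] (U : Subgroup G) [U.Normal] (P : Subgroup G → Prop)
    (base : P U)
    (step : ∀ M H : Subgroup G, U ≤ M → M ≤ H → (M.subgroupOf H).Normal → M.relIndex H = p →
      P M → P H) :
    ∀ (n : ℕ) (H : Subgroup G), U ≤ H → U.relIndex H = p ^ n → P H := by
  intro n
  induction n with
  | zero =>
    intro H hUH h
    rw [pow_zero, Subgroup.relIndex_eq_one] at h
    rwa [le_antisymm h hUH]
  | succ n ih =>
    intro H hUH h
    obtain ⟨M, hUM, hMH, hn, hidx, hM⟩ := exists_normal_relIndex_prime hUH h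
    exact step M H hUM hMH hn hidx (ih M hUM hM)

/-- **Sylow + `p`-tower induction.** -/
theorem sylowTower_induction [hp : Fact p.Prime] (U : Subgroup G) [U.Normal] [U.FiniteIndex]
    (P : Subgroup G → Prop) (base : P U)
    (step : ∀ M H : Subgroup G, U ≤ M → M ≤ H → (M.subgroupOf H).Normal → M.relIndex H = p →
      P M → P H)
    (syl : ∀ H K : Subgroup G, U ≤ H → H ≤ K → Nat.Coprime (H.relIndex K) p → P H → P K)
    (K : Subgroup G) (hK : U ≤ K) : P K := by
  obtain ⟨H, hUH, hHK, hcop, n, hn⟩ := exists_sylow_between (p := p) hK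
  exact syl H K hUH hHK hcop (pTower_induction U P base step n H hUH hn)

/-- a normal step of index `p` carries a surjective character to `ZMod p` -/
theorem exists_char_of_relIndex_prime [hp : Fact p.Prime] {M H : Subgroup G}
    [hn : (M.subgroupOf H).Normal] (h : M.relIndex H = p) :
    ∃ χ : ↥H →* Multiplicative (ZMod p), χ.ker = M.subgroupOf H ∧
      ∃ σ, χ σ = Multiplicative.ofAdd 1 := by
  subst h
  have hcyc : IsCyclic (↥H ⧸ M.subgroupOf H) :=
    isCyclic_of_prime_card (p := M.relIndex H) rfl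
  let e : Multiplicative (ZMod (M.relIndex H)) ≃* (↥H ⧸ M.subgroupOf H) :=
    zmodCyclicMulEquiv hcyc
  refine ⟨e.symm.toMonoidHom.comp (QuotientGroup.mk' _), ?_, ?_⟩
  · ext x
    rw [MonoidHom.mem_ker, MonoidHom.comp_apply]
    change e.symm _ = 1 ↔ _
    rw [EmbeddingLike.map_eq_one_iff]
    exact QuotientGroup.eq_one_iff x
  · obtain ⟨σ, hσ⟩ := QuotientGroup.mk'_surjective (M.subgroupOf H) (e (Multiplicative.ofAdd 1))
    refine ⟨σ, ?_⟩
    rw [MonoidHom.comp_apply, hσ]
    exact e.symm_apply_apply _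

end Fermat.Agent.CFT
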